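import Mathlib
import Fermat.Agent.LT.H556.A0
import Fermat.Agent.LT.T1.Spec
import Fermat.Agent.LT.T5.Spec
import Fermat.Agent.LT.T5.H29.TwSpec

/-!
# Row LT, tower T5, sub-leaf T5.07c `BoxC` (helper472) -- OFF-MAIN

`boxC472 : T5.H29.BoxC K`, UNCONDITIONAL: the module `‖·‖_𝔸` is bounded above on the ideles
which lie in a compact subset `Q` of the adele ring.

Route 1 of the registry row: the sets

    U (S, n) = {x | ‖x_w‖ < n + 2 (w ∣ ∞),  x_v ∈ 𝒪_v (v ∉ S),  ‖x_v‖ < n + 2 (v ∈ S)}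

(`S` a finite set of finite places, `n` a natural number) are open, cover `𝔸_K` and are directed;
so `Q` lies in one of them, and on the ideles of `U (S, n)` the module is at most
`(∏_w (n+2)^{mult w}) (n+2)^{#S}`.
-/

set_option autoImplicit false

open IsDedekindDomain NumberField
open scoped RestrictedProduct

noncomputable section

namespace Fermat.Agent.LT.T5.H472

open Fermat.Agent.LT.H556.A0 Fermat.Agent.LT

variable {K : Type} [Field K] [NumberField K]

/-- The box `U (S, n)`. -/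
def box472 (K : Type) [Field K] [NumberField K]
    (p : Finset (HeightOneSpectrum (𝓞 K)) × ℕ) : Set (Adl K) :=
  {x | (∀ w : InfinitePlace K, ‖x.1 w‖ < (p.2 : ℝ) + 2) ∧
    (∀ v : HeightOneSpectrum (𝓞 K), v ∉ p.1 → x.2 v ∈ v.adicCompletionIntegers K) ∧
    ∀ v ∈ p.1, ‖x.2 v‖ < (p.2 : ℝ) + 2}

theorem continuous_inf472 (w : InfinitePlace K) : Continuous fun x : Adl K => ‖x.1 w‖ :=
  continuous_norm.comp ((continuous_apply w).comp continuous_fst)

theorem continuous_fin472 (v : HeightOneSpectrum (𝓞 K)) :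
    Continuous fun x : Adl K => ‖x.2 v‖ :=
  continuous_norm.comp
    ((RestrictedProduct.continuous_eval (R := fun v : HeightOneSpectrum (𝓞 K) =>
      v.adicCompletion K) (A := fun v => (v.adicCompletionIntegers K : Set (v.adicCompletion K)))
      v).comp continuous_snd)

theorem isOpen_box472 (p : Finset (HeightOneSpectrum (𝓞 K)) × ℕ) : IsOpen (box472 K p) := by
  have h1 : IsOpen {x : Adl K | ∀ w : InfinitePlace K, ‖x.1 w‖ < (p.2 : ℝ) + 2} := by
    have : {x : Adl K | ∀ w : InfinitePlace K, ‖x.1 w‖ < (p.2 : ℝ) + 2}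
        = ⋂ w : InfinitePlace K, {x : Adl K | ‖x.1 w‖ < (p.2 : ℝ) + 2} := by
      ext x; simp
    rw [this]
    exact isOpen_iInter_of_finite fun w => isOpen_lt (continuous_inf472 w) continuous_const
  have h2 : IsOpen {x : Adl K | ∀ v : HeightOneSpectrum (𝓞 K), v ∉ p.1 →
      x.2 v ∈ v.adicCompletionIntegers K} := by
    have hopen : ∀ v : HeightOneSpectrum (𝓞 K),
        IsOpen (v.adicCompletionIntegers K : Set (v.adicCompletion K)) :=
      fun v => Valued.isOpen_valuationSubring _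
    have := RestrictedProduct.isOpen_forall_imp_mem
      (R := fun v : HeightOneSpectrum (𝓞 K) => v.adicCompletion K)
      (A := fun v => (v.adicCompletionIntegers K : Set (v.adicCompletion K))) hopen
      (p := fun v => v ∉ p.1)
    exact this.preimage continuous_snd
  have h3 : IsOpen {x : Adl K | ∀ v ∈ p.1, ‖x.2 v‖ < (p.2 : ℝ) + 2} := by
    have : {x : Adl K | ∀ v ∈ p.1, ‖x.2 v‖ < (p.2 : ℝ) + 2}
        = ⋂ v ∈ p.1, {x : Adl K | ‖x.2 v‖ < (p.2 : ℝ) + 2} := by
      ext x; simp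
    rw [this]
    exact isOpen_biInter_finset fun v _ => isOpen_lt (continuous_fin472 v) continuous_const
  exact (h1.inter (h2.inter h3))

/-- Integral elements have norm at most one. -/
theorem norm_le_one_of_mem472 (v : HeightOneSpectrum (𝓞 K)) {y : v.adicCompletion K}
    (hy : y ∈ v.adicCompletionIntegers K) : ‖y‖ ≤ 1 := by
  rw [Valued.toNormedField.norm_le_one_iff]
  exact (HeightOneSpectrum.mem_adicCompletionIntegers (𝓞 K) K v).1 hy

/-- The boxes cover the adele ring. -/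
theorem exists_box472 (x : Adl K) : ∃ p, x ∈ box472 K p := by
  classical
  have hfin : {v : HeightOneSpectrum (𝓞 K) | x.2 v ∉ v.adicCompletionIntegers K}.Finite := by
    have := x.2.2
    rwa [Filter.eventually_cofinite] at this
  set S : Finset (HeightOneSpectrum (𝓞 K)) := hfin.toFinset with hS
  set c : ℝ := (∑ w : InfinitePlace K, ‖x.1 w‖) + ∑ v ∈ S, ‖x.2 v‖ with hc
  have h1 : 0 ≤ ∑ w : InfinitePlace K, ‖x.1 w‖ := Finset.sum_nonneg fun _ _ => norm_nonneg _
  have h2 : 0 ≤ ∑ v ∈ S, ‖x.2 v‖ := Finset.sum_nonneg fun _ _ => norm_nonneg _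
  have hn : c ≤ (⌈c⌉₊ : ℝ) := Nat.le_ceil c
  refine ⟨(S, ⌈c⌉₊), ?_, ?_, ?_⟩
  · intro w
    have : ‖x.1 w‖ ≤ ∑ w : InfinitePlace K, ‖x.1 w‖ :=
      Finset.single_le_sum (f := fun w : InfinitePlace K => ‖x.1 w‖)
        (fun _ _ => norm_nonneg _) (Finset.mem_univ w)
    show ‖x.1 w‖ < (⌈c⌉₊ : ℝ) + 2
    linarith
  · intro v hv
    by_contra h
    exact hv (hfin.mem_toFinset.2 h)
  · intro v hv
    have : ‖x.2 v‖ ≤ ∑ v ∈ S, ‖x.2 v‖ :=
      Finset.single_le_sum (f := fun v : HeightOneSpectrum (𝓞 K) => ‖x.2 v‖)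
        (fun _ _ => norm_nonneg _) hv
    show ‖x.2 v‖ < (⌈c⌉₊ : ℝ) + 2
    linarith

/-- The boxes are directed. -/
theorem directed_box472 : Directed (· ⊆ ·) (box472 K) := by
  classical
  intro p q
  have key : ∀ p q : Finset (HeightOneSpectrum (𝓞 K)) × ℕ,
      box472 K p ⊆ box472 K (p.1 ∪ q.1, max p.2 q.2) := by
    intro p q x hx
    have hle : (p.2 : ℝ) ≤ ((max p.2 q.2 : ℕ) : ℝ) := by exact_mod_cast le_max_left _ _
    have h0 : (0 : ℝ) ≤ ((max p.2 q.2 : ℕ) : ℝ) := Nat.cast_nonneg _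
    refine ⟨fun w => ?_, fun v hv => ?_, fun v hv => ?_⟩
    · have := hx.1 w
      show ‖x.1 w‖ < ((max p.2 q.2 : ℕ) : ℝ) + 2
      linarith
    · exact hx.2.1 v fun h => hv (Finset.mem_union_left _ h)
    · show ‖x.2 v‖ < ((max p.2 q.2 : ℕ) : ℝ) + 2
      by_cases h : v ∈ p.1
      · have := hx.2.2 v h
        linarith
      · have := norm_le_one_of_mem472 v (hx.2.1 v h)
        linarith
  refine ⟨(p.1 ∪ q.1, max p.2 q.2), key p q, ?_⟩
  have := key q p
  rwa [Finset.union_comm, max_comm] at this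

/-- The bound of the box `(S, n)`. -/
def boxBound472 (K : Type) [Field K] [NumberField K]
    (p : Finset (HeightOneSpectrum (𝓞 K)) × ℕ) : ℝ :=
  (∏ w : InfinitePlace K, ((p.2 : ℝ) + 2) ^ w.mult) * ((p.2 : ℝ) + 2) ^ p.1.card

/-- The finite components of an idele are units of norm one at almost all places. -/
theorem finite_norm_ne_one472 (u : (Adl K)ˣ) :
    {v : HeightOneSpectrum (𝓞 K) | ‖(u : Adl K).2 v‖ ≠ 1}.Finite := by
  have h1 : {v : HeightOneSpectrum (𝓞 K) |
      (u : Adl K).2 v ∉ v.adicCompletionIntegers K}.Finite := by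
    have := (u : Adl K).2.2
    rwa [Filter.eventually_cofinite] at this
  have h2 : {v : HeightOneSpectrum (𝓞 K) |
      ((u⁻¹ : (Adl K)ˣ) : Adl K).2 v ∉ v.adicCompletionIntegers K}.Finite := by
    have := ((u⁻¹ : (Adl K)ˣ) : Adl K).2.2
    rwa [Filter.eventually_cofinite] at this
  refine (h1.union h2).subset fun v hv => ?_
  by_contra hcon
  simp only [Set.mem_union, Set.mem_ofPred_eq, not_or, not_not] at hcon
  obtain ⟨ha, hb⟩ := hcon
  apply hv
  have hmul : (u : Adl K).2 v * ((u⁻¹ : (Adl K)ˣ) : Adl K).2 v = 1 := by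
    have h : (u : Adl K) * ((u⁻¹ : (Adl K)ˣ) : Adl K) = 1 := u.mul_inv
    have h' := congrArg (fun x : Adl K => x.2 v) h
    exact h'
  have hn : ‖(u : Adl K).2 v‖ * ‖((u⁻¹ : (Adl K)ˣ) : Adl K).2 v‖ = 1 := by
    rw [← norm_mul, hmul, norm_one]
  have ha' := norm_le_one_of_mem472 v ha
  have hb' := norm_le_one_of_mem472 v hb
  have hpos : 0 < ‖(u : Adl K).2 v‖ := by
    rcases (norm_nonneg ((u : Adl K).2 v)).lt_or_eq with h | h
    · exact h
    · rw [← h, zero_mul] at hn
      exact absurd hn (by norm_num)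
  nlinarith [norm_nonneg (((u⁻¹ : (Adl K)ˣ) : Adl K).2 v)]

/-- The module of an idele in the box `p` is at most `boxBound472 K p`. -/
theorem adNorm_le_of_mem_box472 (p : Finset (HeightOneSpectrum (𝓞 K)) × ℕ) (u : (Adl K)ˣ)
    (hu : (u : Adl K) ∈ box472 K p) : T1.adNorm K (u : Adl K) ≤ boxBound472 K p := by
  classical
  have hc : (0 : ℝ) ≤ (p.2 : ℝ) + 2 := by positivity
  unfold T1.adNorm boxBound472
  refine mul_le_mul ?_ ?_ (finprod_nonneg fun _ => norm_nonneg _)
    (Finset.prod_nonneg fun _ _ => pow_nonneg hc _)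
  · exact Finset.prod_le_prod (fun _ _ => pow_nonneg (norm_nonneg _) _)
      fun w _ => pow_le_pow_left₀ (norm_nonneg _) (hu.1 w).le _
  · have hT := finite_norm_ne_one472 u
    set T : Finset (HeightOneSpectrum (𝓞 K)) := hT.toFinset with hTdef
    have hsupp : Function.mulSupport (fun v : HeightOneSpectrum (𝓞 K) => ‖(u : Adl K).2 v‖)
        ⊆ ((T ∪ p.1 : Finset (HeightOneSpectrum (𝓞 K))) : Set (HeightOneSpectrum (𝓞 K))) := by
      intro v hv
      rw [Finset.coe_union]
      exact Or.inl (by simpa [hTdef] using hv)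
    rw [finprod_eq_prod_of_mulSupport_subset _ hsupp]
    calc ∏ v ∈ T ∪ p.1, ‖(u : Adl K).2 v‖
        ≤ ∏ v ∈ T ∪ p.1, (if v ∈ p.1 then (p.2 : ℝ) + 2 else 1) := by
          refine Finset.prod_le_prod (fun _ _ => norm_nonneg _) fun v _ => ?_
          split_ifs with h
          · exact (hu.2.2 v h).le
          · exact norm_le_one_of_mem472 v (hu.2.1 v h)
      _ = ∏ v ∈ p.1, (if v ∈ p.1 then (p.2 : ℝ) + 2 else 1) := by
          refine (Finset.prod_subset Finset.subset_union_right fun v _ hv => ?_).symm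
          rw [if_neg hv]
      _ = ((p.2 : ℝ) + 2) ^ p.1.card := by
          rw [Finset.prod_congr rfl fun v hv => if_pos hv, Finset.prod_const]

/-- **T5.07c BoxC**, unconditional. -/
theorem boxC472 (K : Type) [Field K] [NumberField K] : T5.H29.BoxC K := by
  intro Q hQ
  obtain ⟨p, hp⟩ := hQ.elim_directed_cover (box472 K) isOpen_box472
    (fun x _ => Set.mem_iUnion.2 (exists_box472 x)) directed_box472
  exact ⟨boxBound472 K p, fun u hu => adNorm_le_of_mem_box472 p u (hp hu)⟩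

end Fermat.Agent.LT.T5.H472

end
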